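import Fermat.Agent.S18.MODFF4186.PolePart

/-!
# S18 / MODFF (helper4186): the local parameters `τ i` and the place `Pstar` of `core`

Abstract form of step (C1) of the route and of its two consequences used by `core`:

* `pole_gen_of_redCompat`: if the pole divisors of `gen x` and `red x` have the same degree
  (for the modular fields: `x = j`, both degrees are `ψ(N)`), then `r` maps poles of `gen x`
  to poles of `red x`;
* `exists_tau_pstar`: for places `Q i` of `Ft` which are finite for `red x` and at which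
  `red x - c_i` is a uniformiser (`c_i` the residue of some `a_i ∈ A`), the admissible series
  `τ i := x - a_i` satisfy hypothesis `hτ` of `core`; and any pole `Pstar` of `gen x` satisfies
  `hPstar`.
-/

set_option autoImplicit false

noncomputable section

namespace Fermat.Agent.S18.MODFF4186

open ModularCurve AlgebraicCurve

section PlaceLemmas

variable {K F : Type*} [Field K] [Field F] [Algebra K F]

/-- `0 ≤ ord_v f` iff `f` lies in the valuation ring of `v` (for `f ≠ 0`). -/
theorem ord_nonneg_iff (v : Place K F) {f : F} (hf : f ≠ 0) :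
    0 ≤ v.ord f ↔ f ∈ v.toValuationSubring := by
  obtain ⟨π, hπ⟩ := IsDiscreteValuationRing.exists_irreducible v.toValuationSubring
  obtain ⟨u, hu⟩ := v.exists_unit_mul_zpow hf hπ
  constructor
  · intro h
    obtain ⟨n, hn⟩ := Int.eq_ofNat_of_zero_le h
    rw [hu, hn, zpow_natCast]
    exact mul_mem (u : v.toValuationSubring).2 (pow_mem π.2 n)
  · intro hfO
    by_contra hlt
    push Not at hlt
    obtain ⟨k, hk⟩ := Int.exists_eq_neg_ofNat hlt.le
    have hk0 : k ≠ 0 := by
      rintro rfl
      rw [hk] at hlt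
      simp at hlt
    have hπF : (π : F) ≠ 0 := by
      simpa [ne_eq, ZeroMemClass.coe_eq_zero] using hπ.ne_zero
    have hprod : (⟨f, hfO⟩ : v.toValuationSubring) * π ^ k = (u : v.toValuationSubring) := by
      apply Subtype.ext
      show f * (π : F) ^ k = ((u : v.toValuationSubring) : F)
      conv_lhs => rw [hu, hk]
      rw [zpow_neg, zpow_natCast, mul_assoc, inv_mul_cancel₀ (pow_ne_zero k hπF), mul_one]
    have hunit : IsUnit ((⟨f, hfO⟩ : v.toValuationSubring) * π ^ k) := hprod ▸ u.isUnit
    have h2 : IsUnit (π ^ k) := isUnit_of_mul_isUnit_right hunit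
    exact hπ.not_isUnit ((isUnit_pow_iff hk0).mp h2)

/-- A nonzero element with negative order is not in the valuation ring. -/
theorem notMem_of_ord_neg (v : Place K F) {f : F} (h : v.ord f < 0) :
    f ∉ v.toValuationSubring := by
  have hf : f ≠ 0 := by
    rintro rfl
    simp at h
  intro hmem
  exact absurd ((ord_nonneg_iff v hf).mpr hmem) (not_le.mpr h)

/-- If `ord_v (f - c) < 0` for a constant `c`, then `ord_v f < 0`. -/
theorem ord_neg_of_ord_sub_const_neg (v : Place K F) (f : F) (c : K)
    (h : v.ord (f - algebraMap K F c) < 0) : v.ord f < 0 := by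
  by_contra hnn
  push Not at hnn
  have hmem : f ∈ v.toValuationSubring := by
    rcases eq_or_ne f 0 with rfl | hf
    · exact zero_mem _
    · exact (ord_nonneg_iff v hf).mp hnn
  exact notMem_of_ord_neg v h (sub_mem hmem (v.algebraMap_mem' c))

end PlaceLemmas

section AdmLemmas

variable {L : Type*} [Field L] (A : ValuationSubring L)
variable (Fb : IntermediateField L (LaurentSeries L))
variable (Ft : IntermediateField (IsLocalRing.ResidueField A)
  (LaurentSeries (IsLocalRing.ResidueField A)))

/-- The constant admissible series attached to `a ∈ A`. -/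
def constAdm (a : A) : Adm A Fb Ft :=
  ⟨HahnSeries.single 0 a, by
    rw [mem_Adm, coeffMap_single, coeffMap_single, ← algebraMap_laurentSeries_eq_single,
      ← algebraMap_laurentSeries_eq_single]
    exact ⟨Fb.algebraMap_mem _, Ft.algebraMap_mem _⟩⟩

theorem genOf_constAdm (a : A) :
    genOf A Fb Ft (constAdm A Fb Ft a) = algebraMap L Fb (a : L) := by
  apply Subtype.ext
  show coeffMap A.subtype (HahnSeries.single 0 a) = algebraMap L (LaurentSeries L) (a : L)
  rw [coeffMap_single, algebraMap_laurentSeries_eq_single]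
  rfl

theorem redOf_constAdm (a : A) :
    redOf A Fb Ft (constAdm A Fb Ft a) =
      algebraMap (IsLocalRing.ResidueField A) Ft (IsLocalRing.residue A a) := by
  apply Subtype.ext
  show coeffMap (IsLocalRing.residue A) (HahnSeries.single 0 a) =
    algebraMap (IsLocalRing.ResidueField A) (LaurentSeries (IsLocalRing.ResidueField A))
      (IsLocalRing.residue A a)
  rw [coeffMap_single, algebraMap_laurentSeries_eq_single]

theorem genOf_sub (y z : Adm A Fb Ft) :
    genOf A Fb Ft (y - z) = genOf A Fb Ft y - genOf A Fb Ft z := by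
  apply Subtype.ext
  show coeffMap A.subtype ((y : LaurentSeries A) - (z : LaurentSeries A)) = _
  rw [map_sub]
  rfl

theorem redOf_sub (y z : Adm A Fb Ft) :
    redOf A Fb Ft (y - z) = redOf A Fb Ft y - redOf A Fb Ft z := by
  apply Subtype.ext
  show coeffMap (IsLocalRing.residue A) ((y : LaurentSeries A) - (z : LaurentSeries A)) = _
  rw [map_sub]
  rfl

/-- `RedCompat` in divisor form. -/
theorem mapDomain_eq_of_redCompat
    (r : Place L Fb → Place (IsLocalRing.ResidueField A) Ft) (hr : RedCompat A Fb Ft r)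
    (x : Adm A Fb Ft) (hx : redOf A Fb Ft x ≠ 0)
    (Db : Divisor L Fb) (hDb : ∀ P, Db P = P.ord (genOf A Fb Ft x))
    (Dt : Divisor (IsLocalRing.ResidueField A) Ft) (hDt : ∀ Q, Dt Q = Q.ord (redOf A Fb Ft x)) :
    Finsupp.mapDomain r Db = Dt := by
  ext Q
  rw [hDt Q]
  exact hr (x : LaurentSeries A) x.2.1 x.2.2 (fun h => hx (Subtype.ext h)) Db hDb Q

/-- **(C1)** Poles of `gen x` reduce to poles of `red x` when the two pole divisors have the same
degree. -/
theorem pole_gen_of_redCompat
    (r : Place L Fb → Place (IsLocalRing.ResidueField A) Ft) (hr : RedCompat A Fb Ft r)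
    (hrdeg : ∀ P, (r P).deg = P.deg)
    (hdegt : ∀ Q : Place (IsLocalRing.ResidueField A) Ft, 0 < Q.deg)
    (x : Adm A Fb Ft) (hx : redOf A Fb Ft x ≠ 0)
    (Db : Divisor L Fb) (hDb : ∀ P, Db P = P.ord (genOf A Fb Ft x))
    (Dt : Divisor (IsLocalRing.ResidueField A) Ft) (hDt : ∀ Q, Dt Q = Q.ord (redOf A Fb Ft x))
    (hpole : Divisor.degree (polePart Db) = Divisor.degree (polePart Dt))
    (P : Place L Fb) (hP : P.ord (genOf A Fb Ft x) < 0) :
    (r P).ord (redOf A Fb Ft x) < 0 := by
  have h := pole_of_pole r hrdeg hdegt Db Dt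
    (mapDomain_eq_of_redCompat A Fb Ft r hr x hx Db hDb Dt hDt) hpole P (by rw [hDb]; exact hP)
  rwa [hDt] at h

/-- **(C1)** Zeros of `gen x` reduce to zeros of `red x` when the two pole divisors have the same
degree. -/
theorem zero_gen_of_redCompat
    (r : Place L Fb → Place (IsLocalRing.ResidueField A) Ft) (hr : RedCompat A Fb Ft r)
    (hrdeg : ∀ P, (r P).deg = P.deg)
    (hdegt : ∀ Q : Place (IsLocalRing.ResidueField A) Ft, 0 < Q.deg)
    (x : Adm A Fb Ft) (hx : redOf A Fb Ft x ≠ 0)
    (Db : Divisor L Fb) (hDb : ∀ P, Db P = P.ord (genOf A Fb Ft x))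
    (Dt : Divisor (IsLocalRing.ResidueField A) Ft) (hDt : ∀ Q, Dt Q = Q.ord (redOf A Fb Ft x))
    (hpole : Divisor.degree (polePart Db) = Divisor.degree (polePart Dt))
    (P : Place L Fb) (hP : 0 < P.ord (genOf A Fb Ft x)) :
    0 < (r P).ord (redOf A Fb Ft x) := by
  have h := zero_of_zero r hrdeg hdegt Db Dt
    (mapDomain_eq_of_redCompat A Fb Ft r hr x hx Db hDb Dt hDt) hpole P (by rw [hDb]; exact hP)
  rwa [hDt] at h

/-- **Supply of `τ`, `hτ`, `Pstar`, `hPstar` for `core`.** -/
theorem exists_tau_pstar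
    (r : Place L Fb → Place (IsLocalRing.ResidueField A) Ft) (hr : RedCompat A Fb Ft r)
    (hrdeg : ∀ P, (r P).deg = P.deg)
    (hdegt : ∀ Q : Place (IsLocalRing.ResidueField A) Ft, 0 < Q.deg)
    (x : Adm A Fb Ft) (hx : redOf A Fb Ft x ≠ 0)
    (Db : Divisor L Fb) (hDb : ∀ P, Db P = P.ord (genOf A Fb Ft x))
    (Dt : Divisor (IsLocalRing.ResidueField A) Ft) (hDt : ∀ Q, Dt Q = Q.ord (redOf A Fb Ft x))
    (hpole : Divisor.degree (polePart Db) = Divisor.degree (polePart Dt))
    (hex : ∃ P : Place L Fb, P.ord (genOf A Fb Ft x) < 0)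
    {g : ℕ} (Q : Fin g → Place (IsLocalRing.ResidueField A) Ft)
    (hQfin : ∀ i, 0 ≤ (Q i).ord (redOf A Fb Ft x))
    (hQunr : ∀ i, ∃ a : A, (Q i).ord (redOf A Fb Ft x -
      algebraMap (IsLocalRing.ResidueField A) Ft (IsLocalRing.residue A a)) = 1) :
    (∃ τ : Fin g → Adm A Fb Ft, ∀ i, (Q i).ord (redOf A Fb Ft (τ i)) = 1 ∧
      ∀ P, r P = Q i → 0 ≤ P.ord (genOf A Fb Ft (τ i))) ∧
    ∃ Pstar : Place L Fb, r Pstar ∉ Set.range Q := by
  have hpoles := pole_gen_of_redCompat A Fb Ft r hr hrdeg hdegt x hx Db hDb Dt hDt hpole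
  constructor
  · choose a ha using hQunr
    refine ⟨fun i => x - constAdm A Fb Ft (a i), fun i => ⟨?_, fun P hP => ?_⟩⟩
    · rw [redOf_sub, redOf_constAdm]
      exact ha i
    · by_contra hneg
      push Not at hneg
      rw [genOf_sub, genOf_constAdm] at hneg
      have h1 := ord_neg_of_ord_sub_const_neg P _ _ hneg
      have h2 := hpoles P h1
      rw [hP] at h2
      exact absurd (hQfin i) (not_le.mpr h2)
  · obtain ⟨P0, hP0⟩ := hex
    refine ⟨P0, ?_⟩
    rintro ⟨i, hi⟩
    have h2 := hpoles P0 hP0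
    rw [← hi] at h2
    exact absurd (hQfin i) (not_le.mpr h2)

end AdmLemmas

end Fermat.Agent.S18.MODFF4186
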