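import Fermat.Agent.S18.MODFF4186.Bridge
import Fermat.Agent.S18.MODFF4186.Tau

/-!
# S18 / MODFF (helper4186): (C1) for the modular fields, on the frozen `RT.lean`, `Red.lean`

`r` maps poles of `j` (on `Fb N`) to poles of `j̄` (on `Ft A N`).
-/

set_option autoImplicit false

noncomputable section

namespace Fermat.Agent.S18.MODFF4186

open ModularCurve AlgebraicCurve IntermediateField

variable {ℓ : ℕ} [Fact ℓ.Prime] {A : ValuationSubring (AlgebraicClosure ℚ)} {N : ℕ} [NeZero N]

theorem jb_ne_zero : jb N ≠ 0 := fun h =>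
  transcendental_jb N (h ▸ isAlgebraic_zero)

theorem jt_ne_zero (hA : A.LiesOverPrime ℓ) : jt A N ≠ 0 := fun h =>
  transcendental_jt (N := N) hA (h ▸ isAlgebraic_zero)

/-- All places of the special function field have degree one. -/
theorem deg_Ft (hℓN : ¬ ℓ ∣ N) (hA : A.LiesOverPrime ℓ)
    (Q : Place (IsLocalRing.ResidueField A) (Ft A N)) : Q.deg = 1 := by
  haveI := isAlgClosed_residueField A
  haveI := finiteDimensional_Ft hℓN hA
  haveI := isSeparable_Ft hℓN hA
  exact rt_deg_eq_one (jt A N) (transcendental_jt hA) Q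

/-- All places of the generic function field have degree one. -/
theorem deg_Fb (P : Place (AlgebraicClosure ℚ) (Fb N)) : P.deg = 1 := by
  haveI := finiteDimensional_jb N
  haveI := isSeparable_jb N
  exact rt_deg_eq_one (jb N) (transcendental_jb N) P

/-- The pole divisors of `j` and `j̄` have the same degree. -/
theorem exists_divisors_j (hℓN : ¬ ℓ ∣ N) (hA : A.LiesOverPrime ℓ) :
    ∃ (Db : Divisor (AlgebraicClosure ℚ) (Fb N))
      (Dt : Divisor (IsLocalRing.ResidueField A) (Ft A N)),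
      (∀ P, Db P = P.ord (jb N)) ∧ (∀ Q, Dt Q = Q.ord (jt A N)) ∧
      Divisor.degree (polePart Db) = Divisor.degree (polePart Dt) ∧
      0 < Divisor.degree (polePart Db) := by
  haveI := isAlgClosed_residueField A
  haveI := finiteDimensional_Ft hℓN hA
  haveI := isSeparable_Ft hℓN hA
  haveI := finiteDimensional_jb N
  haveI := isSeparable_jb N
  have hxb := transcendental_jb N
  have hxt := transcendental_jt (N := N) hA
  obtain ⟨Db, hDb⟩ := rt_exists_divisor (jb N) hxb (jb N) jb_ne_zero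
  obtain ⟨Dt, hDt⟩ := rt_exists_divisor (jt A N) hxt (jt A N) (jt_ne_zero hA)
  obtain ⟨Pb, hPb, hPbdeg⟩ := rt_pole_divisor (jb N) hxb
  obtain ⟨Pt, hPt, hPtdeg⟩ := rt_pole_divisor (jt A N) hxt
  have e1 : polePart Db = Pb := by
    ext P
    rw [polePart_apply, hDb, hPb, max_comm]
  have e2 : polePart Dt = Pt := by
    ext Q
    rw [polePart_apply, hDt, hPt, max_comm]
  refine ⟨Db, Dt, hDb, hDt, ?_, ?_⟩
  · rw [e1, e2, hPbdeg, hPtdeg, finrank_Ft hℓN hA]
  · rw [e1, hPbdeg]
    exact_mod_cast Module.finrank_pos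

/-- **(C1)** `r` maps poles of `j` to poles of `j̄`. -/
theorem pole_jt_of_pole_jb (hℓN : ¬ ℓ ∣ N) (hA : A.LiesOverPrime ℓ)
    (r : Place (AlgebraicClosure ℚ) (Fb N) → Place (IsLocalRing.ResidueField A) (Ft A N))
    (hr : IsPlaceReductionModL A N r)
    (P : Place (AlgebraicClosure ℚ) (Fb N)) (hP : P.ord (jb N) < 0) :
    (r P).ord (jt A N) < 0 := by
  obtain ⟨Db, Dt, hDb, hDt, hpole, -⟩ := exists_divisors_j (N := N) hℓN hA
  have hdegt : ∀ Q : Place (IsLocalRing.ResidueField A) (Ft A N), 0 < Q.deg := fun Q => by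
    rw [deg_Ft hℓN hA Q]; exact one_pos
  have h := pole_gen_of_redCompat A (Fb N) (Ft A N) r hr.2 hr.1 hdegt (jAdm A N)
    (by rw [redOf_jAdm]; exact jt_ne_zero hA) Db (by rw [genOf_jAdm]; exact hDb)
    Dt (by rw [redOf_jAdm]; exact hDt) hpole P (by rw [genOf_jAdm]; exact hP)
  rwa [redOf_jAdm] at h

/-- There is a pole of `j`. -/
theorem exists_pole_jb (hℓN : ¬ ℓ ∣ N) (hA : A.LiesOverPrime ℓ) :
    ∃ P : Place (AlgebraicClosure ℚ) (Fb N), P.ord (jb N) < 0 := by
  obtain ⟨Db, Dt, hDb, hDt, -, hpos⟩ := exists_divisors_j (N := N) hℓN hA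
  by_contra hno
  push Not at hno
  have : polePart Db = 0 := by
    ext P
    rw [polePart_apply, hDb, Finsupp.zero_apply]
    exact max_eq_right (by have := hno P; omega)
  rw [this, map_zero] at hpos
  exact lt_irrefl _ hpos

end Fermat.Agent.S18.MODFF4186
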