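import Fermat.Agent.S18.MODFF4186.Gauss
import Fermat.Agent.S18.MODFF4186.C1Mod

/-!
# S18 / MODFF (helper4186): the genus inequality `g(Fb) ≤ g(Ft)` (step (C3) of the route)

On the frozen `RT.lean`, `Red.lean`, `T.lean`:
* `exists_lift_series`: for `m ≫ 0` every `f ∈ L(m (j̄)_∞)` on `Ft` is the reduction of a
  fin-integral series `y = j^m y₂` with `y₂` inf-integral (`thmT_fin`, `thmT_inf`,
  `IsChartInt.exists_normalize`, `exists_mid_split`);
* `gen_mem_Lx`: the generic fibre of such a `y` lies in `L(m (j)_∞)` on `Fb`;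
* `linearIndependent_gen` (abstract): lifts of `k`-independent reductions are `L`-independent;
* `genus_le`: comparison of the two Riemann constants.
-/

set_option autoImplicit false

noncomputable section

namespace Fermat.Agent.S18.MODFF4186

open ModularCurve AlgebraicCurve IntermediateField ModularCurve.IgusaScheme

section Abstract

variable {L : Type*} [Field L] (A : ValuationSubring L)
variable (Fb : IntermediateField L (LaurentSeries L))
variable (Ft : IntermediateField (IsLocalRing.ResidueField A)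
  (LaurentSeries (IsLocalRing.ResidueField A)))

/-- In a finite family of elements of `L`, not all zero, one nonzero member divides all the
others inside the valuation ring `A`. -/
theorem exists_pivot {d : ℕ} (c : Fin d → L) (i₁ : Fin d) (h₁ : c i₁ ≠ 0) :
    ∃ i₀, c i₀ ≠ 0 ∧ ∀ i, c i / c i₀ ∈ A := by
  obtain ⟨i₀, -, hmax⟩ := Finset.exists_max_image Finset.univ (fun i => A.valuation (c i))
    ⟨i₁, Finset.mem_univ _⟩
  have hi₀ : c i₀ ≠ 0 := by
    intro h0
    have h2 := hmax i₁ (Finset.mem_univ _)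
    rw [h0, map_zero] at h2
    exact h₁ ((map_eq_zero _).mp (le_antisymm h2 zero_le'))
  refine ⟨i₀, hi₀, fun i => ?_⟩
  rw [← A.valuation_le_one_iff, map_div₀]
  exact div_le_one_of_le₀ (hmax i (Finset.mem_univ _)) zero_le'

/-- Lifts of `k`-linearly independent reductions are `L`-linearly independent. -/
theorem linearIndependent_gen {d : ℕ} (y : Fin d → Adm A Fb Ft)
    (h : LinearIndependent (IsLocalRing.ResidueField A) (fun i => redOf A Fb Ft (y i))) :
    LinearIndependent L (fun i => genOf A Fb Ft (y i)) := by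
  rw [Fintype.linearIndependent_iff]
  intro c hc
  by_contra hne
  push Not at hne
  obtain ⟨i₁, hi₁⟩ := hne
  obtain ⟨i₀, hi₀, hmem⟩ := exists_pivot A c i₁ hi₁
  let a : Fin d → A := fun i => ⟨c i / c i₀, hmem i⟩
  have hrel : ∑ i, HahnSeries.C (a i) * ((y i : Adm A Fb Ft) : LaurentSeries A) = 0 := by
    apply coeffMap_subtype_injective A
    rw [map_zero, map_sum]
    simp only [map_mul, coeffMap_subtype_C]
    have h1 := congrArg (fun z : Fb => (z : LaurentSeries L)) hc
    simp only [AddSubmonoidClass.coe_finset_sum, ZeroMemClass.coe_zero] at h1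
    have h2 : ∀ i, algebraMap L (LaurentSeries L) ((a i : A) : L) *
        coeffMap A.subtype ((y i : Adm A Fb Ft) : LaurentSeries A) =
        algebraMap L (LaurentSeries L) (c i₀)⁻¹ *
          (((c i • genOf A Fb Ft (y i) : Fb) : Fb) : LaurentSeries L) := by
      intro i
      have h3 : ((c i • genOf A Fb Ft (y i) : Fb) : LaurentSeries L) =
          algebraMap L (LaurentSeries L) (c i) *
            coeffMap A.subtype ((y i : Adm A Fb Ft) : LaurentSeries A) := by
        rw [Algebra.smul_def]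
        rfl
      rw [h3, ← mul_assoc, ← map_mul]
      congr 2
      show c i / c i₀ = (c i₀)⁻¹ * c i
      rw [div_eq_mul_inv, mul_comm]
    rw [Finset.sum_congr rfl (fun i _ => h2 i), ← Finset.mul_sum, h1, mul_zero]
  have hred := congrArg (coeffMap (IsLocalRing.residue A)) hrel
  rw [map_zero, map_sum] at hred
  simp only [map_mul, coeffMap_residue_C] at hred
  have hk : ∑ i, (IsLocalRing.residue A (a i)) • redOf A Fb Ft (y i) = 0 := by
    apply Subtype.ext
    simp only [AddSubmonoidClass.coe_finset_sum, ZeroMemClass.coe_zero]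
    rw [← hred]
    refine Finset.sum_congr rfl fun i _ => ?_
    rw [Algebra.smul_def]
    rfl
  have h4 := Fintype.linearIndependent_iff.mp h _ hk i₀
  have ha0 : a i₀ = 1 := Subtype.ext (div_self hi₀)
  rw [ha0, map_one] at h4
  exact one_ne_zero h4

end Abstract

variable {ℓ : ℕ} [Fact ℓ.Prime] {A : ValuationSubring (AlgebraicClosure ℚ)} {N : ℕ} [NeZero N]

theorem isChartInt_pow_j (n : ℕ) : IsIntMid ℓ A N (jqModC A ^ n) := by
  induction n with
  | zero =>
    rw [pow_zero]
    have h := isChartInt_C ℓ A N {jFull N, (jFull N)⁻¹} (1 : A)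
    rwa [map_one] at h
  | succ n ih =>
    rw [pow_succ]
    exact isChartInt_mul ℓ A N _ ih
      (isChartInt_mono ℓ A N singleton_subset_pair (isIntFin_j ℓ A N))

/-- **Lifting** (uses Theorem T). -/
theorem exists_lift_series (hℓN : ¬ ℓ ∣ N) (hA : A.LiesOverPrime ℓ) :
    ∃ m₀ : ℕ, ∀ m : ℕ, m₀ ≤ m → ∀ f : Ft A N,
      f ∈ Lx (IsLocalRing.ResidueField A) (jt A N) m →
      ∃ y y₂ : LaurentSeries A, IsIntFin ℓ A N y ∧ IsIntInf ℓ A N y₂ ∧
        y = jqModC A ^ m * y₂ ∧
        coeffMap (IsLocalRing.residue A) y = (f : LaurentSeries (IsLocalRing.ResidueField A)) := by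
  obtain ⟨m₀, hm₀⟩ := exists_mid_split (ℓ := ℓ) (A := A) (N := N) hℓN hA
  refine ⟨m₀, fun m hm f hf => ?_⟩
  have hf' : IsIntegral (Algebra.adjoin (IsLocalRing.ResidueField A) {jt A N}) f ∧
      IsIntegral (Algebra.adjoin (IsLocalRing.ResidueField A) {(jt A N)⁻¹})
        (f * (jt A N)⁻¹ ^ m) := hf
  obtain ⟨hf1, hf2⟩ := hf'
  obtain ⟨a, ha, hared⟩ := thmT_fin hℓN hA f hf1
  obtain ⟨b, hb, hbred⟩ := thmT_inf hℓN hA (f * (jt A N)⁻¹ ^ m) hf2
  have hamid : IsIntMid ℓ A N a := isChartInt_mono ℓ A N singleton_subset_pair ha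
  have hbmid : IsIntMid ℓ A N b := isChartInt_mono ℓ A N singleton_inv_subset_pair hb
  have hw : IsIntMid ℓ A N (a - jqModC A ^ m * b) := by
    rw [sub_eq_add_neg]
    exact isChartInt_add ℓ A N _ hamid
      (isChartInt_neg ℓ A N _ (isChartInt_mul ℓ A N _ (isChartInt_pow_j m) hbmid))
  have hj0 := jqModC_ne_zero_of_nontrivial (IsLocalRing.ResidueField A)
  have hwred : coeffMap (IsLocalRing.residue A) (a - jqModC A ^ m * b) = 0 := by
    rw [map_sub, map_mul, map_pow, hared, hbred, coeffMap_jqModC]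
    have h1 : ((f * (jt A N)⁻¹ ^ m : Ft A N) : LaurentSeries (IsLocalRing.ResidueField A)) =
        (f : LaurentSeries (IsLocalRing.ResidueField A)) *
          (jqModC (IsLocalRing.ResidueField A))⁻¹ ^ m := rfl
    rw [h1, mul_comm (f : LaurentSeries (IsLocalRing.ResidueField A)), ← mul_assoc, ← mul_pow,
      mul_inv_cancel₀ hj0, one_pow, one_mul, sub_self]
  by_cases hw0 : a - jqModC A ^ m * b = 0
  · exact ⟨a, b, ha, hb, sub_eq_zero.mp hw0, hared⟩
  · obtain ⟨c, w', hc, hw', e, hw'red⟩ :=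
      IsChartInt.exists_normalize hℓN hA (Or.inr (Or.inr rfl)) hw hw0
    have hcres : IsLocalRing.residue A c = 0 := by
      have h0 : coeffMap (IsLocalRing.residue A) (HahnSeries.C c * w') = 0 := by
        rw [← e]; exact hwred
      rw [map_mul, coeffMap_residue_C] at h0
      rcases mul_eq_zero.mp h0 with h | h
      · exact (map_eq_zero _).mp h
      · exact absurd h hw'red
    obtain ⟨w₁, w₂, hw₁, hw₂, e'⟩ := hm₀ m hm w' hw'
    refine ⟨a - HahnSeries.C c * w₁, b + HahnSeries.C c * w₂, ?_, ?_, ?_, ?_⟩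
    · rw [sub_eq_add_neg]
      exact isChartInt_add ℓ A N _ ha
        (isChartInt_neg ℓ A N _ (isChartInt_mul ℓ A N _ (isChartInt_C ℓ A N _ c) hw₁))
    · exact isChartInt_add ℓ A N _ hb (isChartInt_mul ℓ A N _ (isChartInt_C ℓ A N _ c) hw₂)
    · have h5 : a - jqModC A ^ m * b = HahnSeries.C c * (w₁ + jqModC A ^ m * w₂) := by
        rw [← e', ← e]
      linear_combination h5
    · rw [map_sub, map_mul, coeffMap_residue_C, hcres, map_zero, zero_mul, sub_zero, hared]

/-- The generic fibre of a fin-integral series `y = j^m y₂`, `y₂` inf-integral, lies in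
`L(m (j)_∞)`. -/
theorem gen_mem_Lx (hℓN : ¬ ℓ ∣ N) (hA : A.LiesOverPrime ℓ) (m : ℕ) (y y₂ : LaurentSeries A)
    (hy : IsIntFin ℓ A N y) (hy₂ : IsIntInf ℓ A N y₂) (e : y = jqModC A ^ m * y₂) :
    genOf A (Fb N) (Ft A N) ⟨y, IsChartInt.mem_Adm hℓN hA singleton_subset_pair hy⟩ ∈
      Lx (AlgebraicClosure ℚ) (jb N) m := by
  refine ⟨isIntegral_gen_of_isIntFin hℓN hA _ hy, ?_⟩
  have h1 := isIntegral_gen_of_isIntInf hℓN hA
    ⟨y₂, IsChartInt.mem_Adm hℓN hA singleton_inv_subset_pair hy₂⟩ hy₂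
  have h2 : genOf A (Fb N) (Ft A N) ⟨y, IsChartInt.mem_Adm hℓN hA singleton_subset_pair hy⟩ *
      (jb N)⁻¹ ^ m =
      genOf A (Fb N) (Ft A N) ⟨y₂, IsChartInt.mem_Adm hℓN hA singleton_inv_subset_pair hy₂⟩ := by
    have hj : jb N ≠ 0 := jb_ne_zero
    have h3 : genOf A (Fb N) (Ft A N) ⟨y, IsChartInt.mem_Adm hℓN hA singleton_subset_pair hy⟩ =
        jb N ^ m *
        genOf A (Fb N) (Ft A N) ⟨y₂, IsChartInt.mem_Adm hℓN hA singleton_inv_subset_pair hy₂⟩ := by
      apply Subtype.ext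
      show coeffMap A.subtype y = ((jb N : Fb N) : LaurentSeries (AlgebraicClosure ℚ)) ^ m *
        coeffMap A.subtype y₂
      rw [e, map_mul, map_pow, coeffMap_jqModC, coe_jb]
    rw [h3, mul_comm (jb N ^ m), mul_assoc, ← mul_pow, mul_inv_cancel₀ hj, one_pow, mul_one]
  rw [h2]
  exact h1

/-- **Genus inequality** `g(Fb) ≤ g(Ft)`. -/
theorem genus_le (hℓN : ¬ ℓ ∣ N) (hA : A.LiesOverPrime ℓ) (gb gt : ℕ)
    (hfinb : ∀ m : ℕ, Module.Finite (AlgebraicClosure ℚ) (Lx (AlgebraicClosure ℚ) (jb N) m))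
    (hb : ∃ m₀ : ℕ, ∀ m : ℕ, m₀ ≤ m →
      (Module.finrank (AlgebraicClosure ℚ) (Lx (AlgebraicClosure ℚ) (jb N) m) : ℤ) =
        (Module.finrank (AlgebraicClosure ℚ)⟮jb N⟯ (Fb N) : ℤ) * m + 1 - gb)
    (hfint : ∀ m : ℕ, Module.Finite (IsLocalRing.ResidueField A)
      (Lx (IsLocalRing.ResidueField A) (jt A N) m))
    (ht : ∃ m₀ : ℕ, ∀ m : ℕ, m₀ ≤ m →
      (Module.finrank (IsLocalRing.ResidueField A)
        (Lx (IsLocalRing.ResidueField A) (jt A N) m) : ℤ) =
        (Module.finrank (IsLocalRing.ResidueField A)⟮jt A N⟯ (Ft A N) : ℤ) * m + 1 - gt) :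
    gb ≤ gt := by
  obtain ⟨m₁, h₁⟩ := hb
  obtain ⟨m₂, h₂⟩ := ht
  obtain ⟨m₃, h₃⟩ := exists_lift_series (ℓ := ℓ) (A := A) (N := N) hℓN hA
  set m := max m₁ (max m₂ m₃) with hm
  haveI := hfinb m
  haveI := hfint m
  let v := Module.finBasis (IsLocalRing.ResidueField A)
    (Lx (IsLocalRing.ResidueField A) (jt A N) m)
  have hl : ∀ i, ∃ y : Adm A (Fb N) (Ft A N),
      redOf A (Fb N) (Ft A N) y = ((v i : Lx (IsLocalRing.ResidueField A) (jt A N) m) : Ft A N) ∧
      genOf A (Fb N) (Ft A N) y ∈ Lx (AlgebraicClosure ℚ) (jb N) m := by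
    intro i
    obtain ⟨y, y₂, hy, hy₂, e, hred⟩ :=
      h₃ m (le_trans (le_max_right _ _) (le_max_right _ _)) (v i) (v i).2
    exact ⟨⟨y, IsChartInt.mem_Adm hℓN hA singleton_subset_pair hy⟩, Subtype.ext hred,
      gen_mem_Lx hℓN hA m y y₂ hy hy₂ e⟩
  choose y hyred hygen using hl
  have hindk : LinearIndependent (IsLocalRing.ResidueField A)
      (fun i => redOf A (Fb N) (Ft A N) (y i)) := by
    have h5 : (fun i => redOf A (Fb N) (Ft A N) (y i)) =
        fun i => ((v i : Lx (IsLocalRing.ResidueField A) (jt A N) m) : Ft A N) := funext hyred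
    rw [h5]
    exact v.linearIndependent.map' (Submodule.subtype _) (Submodule.ker_subtype _)
  have hindL := linearIndependent_gen A (Fb N) (Ft A N) y hindk
  let u : Fin (Module.finrank (IsLocalRing.ResidueField A)
      (Lx (IsLocalRing.ResidueField A) (jt A N) m)) → Lx (AlgebraicClosure ℚ) (jb N) m :=
    fun i => ⟨genOf A (Fb N) (Ft A N) (y i), hygen i⟩
  have hu : LinearIndependent (AlgebraicClosure ℚ) u :=
    LinearIndependent.of_comp (Submodule.subtype _) hindL
  have hle := hu.fintype_card_le_finrank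
  rw [Fintype.card_fin] at hle
  have e1 := h₁ m (le_max_left _ _)
  have e2 := h₂ m (le_trans (le_max_left _ _) (le_max_right _ _))
  have e3 := finrank_Ft (ℓ := ℓ) (A := A) (N := N) hℓN hA
  have hle' : (Module.finrank (IsLocalRing.ResidueField A)
      (Lx (IsLocalRing.ResidueField A) (jt A N) m) : ℤ) ≤
      (Module.finrank (AlgebraicClosure ℚ) (Lx (AlgebraicClosure ℚ) (jb N) m) : ℤ) := by
    exact_mod_cast hle
  rw [e1, e2, e3] at hle'
  omega

end Fermat.Agent.S18.MODFF4186
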