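import Fermat.Agent.S18.MODFF4186.Genus

/-!
# S18 / MODFF (helper4186): the frozen statement `modff`, proved from the frozen package
statements `RT.lean`, `Red.lean`, `T.lean` and the landed S24 tree

`modff_proof` has EXACTLY the statement of `Fermat.Agent.S18.modff` (`Fermat/Agent/S18/ModFF.lean`).
-/

set_option autoImplicit false

noncomputable section

namespace Fermat.Agent.S18.MODFF4186

open ModularCurve AlgebraicCurve IntermediateField ModularCurve.IgusaScheme

variable {ℓ : ℕ} [Fact ℓ.Prime] {A : ValuationSubring (AlgebraicClosure ℚ)} {N : ℕ} [NeZero N]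

/-- The local parameter at a finite place `Q` of `Ft`: an admissible series whose reduction is a
uniformiser at `Q` and whose generic fibre has no pole in the residue class of `Q`. -/
theorem exists_tau (hℓN : ¬ ℓ ∣ N) (hA : A.LiesOverPrime ℓ)
    (r : Place (AlgebraicClosure ℚ) (Fb N) → Place (IsLocalRing.ResidueField A) (Ft A N))
    (hr : IsPlaceReductionModL A N r)
    (Q : Place (IsLocalRing.ResidueField A) (Ft A N)) (hQ : 0 ≤ Q.ord (jt A N)) :
    ∃ τ : Adm A (Fb N) (Ft A N), Q.ord (redOf A (Fb N) (Ft A N) τ) = 1 ∧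
      ∀ P, r P = Q → 0 ≤ P.ord (genOf A (Fb N) (Ft A N) τ) := by
  haveI := isAlgClosed_residueField A
  haveI := finiteDimensional_Ft hℓN hA
  haveI := isSeparable_Ft hℓN hA
  haveI := finiteDimensional_jb N
  haveI := isSeparable_jb N
  obtain ⟨t, ht, hord⟩ := rt_exists_uniformizer (jt A N) (transcendental_jt hA) Q hQ
  obtain ⟨y, hy, hyred⟩ := thmT_fin hℓN hA t ht
  refine ⟨⟨y, IsChartInt.mem_Adm hℓN hA singleton_subset_pair hy⟩, ?_, fun P hP => ?_⟩
  · have h1 : redOf A (Fb N) (Ft A N)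
        ⟨y, IsChartInt.mem_Adm hℓN hA singleton_subset_pair hy⟩ = t := Subtype.ext hyred
    rw [h1, hord]
  · have hfin : 0 ≤ P.ord (jb N) := by
      by_contra hneg
      push Not at hneg
      have h2 := pole_jt_of_pole_jb hℓN hA r hr P hneg
      rw [hP] at h2
      exact absurd hQ (not_le.mpr h2)
    exact rt_ord_nonneg_of_isIntegral (jb N) (transcendental_jb N) P hfin _
      (isIntegral_gen_of_isIntFin hℓN hA _ hy)

/-- **MODFF**: exactly the frozen statement `Fermat.Agent.S18.modff`. -/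
theorem modff_proof (N : ℕ) [NeZero N] {ℓ : ℕ} [Fact ℓ.Prime] (hℓN : ¬ ℓ ∣ N)
    (A : ValuationSubring (AlgebraicClosure ℚ)) (hA : A.LiesOverPrime ℓ)
    (r : Place (AlgebraicClosure ℚ) (Fb N) → Place (IsLocalRing.ResidueField A) (Ft A N))
    (hr : IsPlaceReductionModL A N r) :
    CoreHyp A (Fb N) (Ft A N) r := by
  haveI := isAlgClosed_residueField A
  haveI := finiteDimensional_Ft hℓN hA
  haveI := isSeparable_Ft hℓN hA
  haveI := finiteDimensional_jb N
  haveI := isSeparable_jb N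
  have hxb := transcendental_jb N
  have hxt := transcendental_jt (N := N) hA
  obtain ⟨gb, hfinb, hmb, hRiemb, -⟩ := rt_riemann (jb N) hxb
  obtain ⟨gt, hfint, hmt, -, hnst⟩ := rt_riemann (jt A N) hxt
  have hg : gb ≤ gt := genus_le hℓN hA gb gt hfinb hmb hfint hmt
  obtain ⟨Q, hQinj, hQfin, hQns⟩ := hnst ∅ gb hg
  have hτ : ∀ i, ∃ τ : Adm A (Fb N) (Ft A N), (Q i).ord (redOf A (Fb N) (Ft A N) τ) = 1 ∧
      ∀ P, r P = Q i → 0 ≤ P.ord (genOf A (Fb N) (Ft A N) τ) :=
    fun i => exists_tau hℓN hA r hr (Q i) (hQfin i).2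
  choose τ hτ using hτ
  obtain ⟨Pstar, hPstar⟩ := exists_pole_jb (N := N) hℓN hA
  refine ⟨deg_Fb, fun f hf => rt_exists_divisor (jb N) hxb f hf, gauss_Fb hℓN hA, gb, hRiemb,
    Q, hQinj, hQns, τ, hτ, Pstar, ?_⟩
  rintro ⟨i, hi⟩
  have h2 := pole_jt_of_pole_jb hℓN hA r hr Pstar hPstar
  rw [← hi] at h2
  exact absurd (hQfin i).2 (not_le.mpr h2)

end Fermat.Agent.S18.MODFF4186
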