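import Fermat.Agent.S18.RT
import Fermat.Agent.S18.Red
import Fermat.Agent.S18.T
import Fermat.Agent.S24.Degree

/-!
# S18 / MODFF piece 0 (helper4186): bridge between the frozen packages and the modular fields

* `isAlgClosed_residueField`: the residue field of a valuation subring of an algebraically closed
  field is algebraically closed (needed to apply `RT.lean` to `Ft A N`);
* the RT hypotheses for `Fb N` with `x = jb N` (landed S24) and for `Ft A N` with `x = jt A N`
  (`Red.lean`);
* the `j`-series as an admissible series `jAdm`, with `genOf = jb N`, `redOf = jt A N`.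
-/

set_option autoImplicit false

noncomputable section

namespace Fermat.Agent.S18.MODFF4186

open ModularCurve AlgebraicCurve IntermediateField Polynomial

section ResidueField

variable {L : Type*} [Field L] [IsAlgClosed L] (A : ValuationSubring L)

/-- The residue field of a valuation subring of an algebraically closed field is algebraically
closed. -/
theorem isAlgClosed_residueField : IsAlgClosed (IsLocalRing.ResidueField A) := by
  apply IsAlgClosed.of_exists_root
  intro p hmonic hirr
  have hsurj : Function.Surjective (IsLocalRing.residue A) := IsLocalRing.residue_surjective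
  have hlift : p ∈ Polynomial.lifts (IsLocalRing.residue A) := by
    obtain ⟨q, hq⟩ := Polynomial.map_surjective (IsLocalRing.residue A) hsurj p
    exact (Polynomial.mem_lifts p).mpr ⟨q, hq⟩
  obtain ⟨P, hPmap, hPdeg, hPmonic⟩ := Polynomial.lifts_and_natDegree_eq_and_monic hlift hmonic
  have hdeg : (P.map (algebraMap A L)).degree ≠ 0 := by
    rw [Polynomial.degree_map_eq_of_injective (FaithfulSMul.algebraMap_injective A L)]
    intro h0
    have h1 : P.natDegree = 0 := Polynomial.natDegree_eq_of_degree_eq_some h0
    rw [hPdeg] at h1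
    have h2 := Polynomial.degree_pos_of_irreducible hirr
    rw [Polynomial.degree_eq_natDegree hmonic.ne_zero, h1] at h2
    exact lt_irrefl _ h2
  obtain ⟨α, hα⟩ := IsAlgClosed.exists_root (P.map (algebraMap A L)) hdeg
  have hint : IsIntegral A α := ⟨P, hPmonic, by
    rw [Polynomial.eval₂_eq_eval_map]; exact hα⟩
  obtain ⟨a, rfl⟩ := (IsIntegrallyClosed.isIntegral_iff (R := A) (K := L)).mp hint
  refine ⟨IsLocalRing.residue A a, ?_⟩
  have hPa : P.eval a = 0 := by
    apply FaithfulSMul.algebraMap_injective A L
    rw [map_zero, ← Polynomial.eval₂_at_apply, ← Polynomial.eval_map]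
    exact hα
  rw [← hPmap, Polynomial.eval_map, Polynomial.eval₂_at_apply, hPa, map_zero]

end ResidueField

end Fermat.Agent.S18.MODFF4186

namespace Fermat.Agent.S18.MODFF4186

open ModularCurve AlgebraicCurve IntermediateField Polynomial

section Generic

variable (N : ℕ) [NeZero N]

theorem jb_eq_jBar : jb N = Fermat.Agent.S24.jBar N := rfl

theorem transcendental_jb : Transcendental (AlgebraicClosure ℚ) (jb N) :=
  Fermat.Agent.S24.jBar_transcendental N

theorem finiteDimensional_jb : FiniteDimensional (AlgebraicClosure ℚ)⟮jb N⟯ (Fb N) :=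
  Fermat.Agent.S24.finiteDimensional_jBar N

theorem isSeparable_jb : Algebra.IsSeparable (AlgebraicClosure ℚ)⟮jb N⟯ (Fb N) := by
  haveI := finiteDimensional_jb N
  infer_instance

end Generic

section Adm

variable (A : ValuationSubring (AlgebraicClosure ℚ)) (N : ℕ) [NeZero N]

theorem coe_jb : ((jb N : Fb N) : LaurentSeries (AlgebraicClosure ℚ)) = jqModC (AlgebraicClosure ℚ) := by
  show coeffEmb (AlgebraicClosure ℚ) jq = _
  rw [coeffEmb, ← jqModC_rat, coeffMap_jqModC]

omit [NeZero N] in
theorem coe_jt : ((jt A N : Ft A N) : LaurentSeries (IsLocalRing.ResidueField A)) =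
    jqModC (IsLocalRing.ResidueField A) := rfl

/-- The `j`-series as an admissible series. -/
def jAdm : Adm A (Fb N) (Ft A N) :=
  ⟨jqModC A, by
    rw [mem_Adm, coeffMap_jqModC, coeffMap_jqModC, ← coe_jb N]
    exact ⟨(jb N).2, (jt A N).2⟩⟩

theorem genOf_jAdm : genOf A (Fb N) (Ft A N) (jAdm A N) = jb N := by
  apply Subtype.ext
  show coeffMap A.subtype (jqModC A) = _
  rw [coeffMap_jqModC, coe_jb]

theorem redOf_jAdm : redOf A (Fb N) (Ft A N) (jAdm A N) = jt A N := by
  apply Subtype.ext
  show coeffMap (IsLocalRing.residue A) (jqModC A) = _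
  rw [coeffMap_jqModC]
  rfl

end Adm

end Fermat.Agent.S18.MODFF4186
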