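import Fermat.Agent.S18.MODFF4186.Bridge

/-!
# S18 / MODFF (helper4186): Gauss normal form (`hGauss` of `core`) for the modular fields

From the frozen `Red.lean`: `exists_isIntFin_frac` (R4), `IsChartInt.exists_normalize` (R3),
`IsChartInt.mem_Adm` (R2).
-/

set_option autoImplicit false

noncomputable section

namespace Fermat.Agent.S18.MODFF4186

open ModularCurve AlgebraicCurve IntermediateField ModularCurve.IgusaScheme

section CoeffMapLemmas

variable {L : Type*} [Field L] (A : ValuationSubring L)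

theorem coeffMap_subtype_injective : Function.Injective (coeffMap A.subtype) := by
  intro y z h
  ext n
  have h1 := congrArg (fun s => s.coeff n) h
  simp only [coeffMap_coeff] at h1
  exact h1

theorem coeffMap_subtype_C (c : A) :
    coeffMap A.subtype (HahnSeries.C c) = algebraMap L (LaurentSeries L) (c : L) := by
  rw [HahnSeries.C_apply, coeffMap_single, algebraMap_laurentSeries_eq_single]
  rfl

theorem coeffMap_residue_C (c : A) :
    coeffMap (IsLocalRing.residue A) (HahnSeries.C c) =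
      algebraMap (IsLocalRing.ResidueField A) (LaurentSeries (IsLocalRing.ResidueField A))
        (IsLocalRing.residue A c) := by
  rw [HahnSeries.C_apply, coeffMap_single, algebraMap_laurentSeries_eq_single]

end CoeffMapLemmas

variable {ℓ : ℕ} [Fact ℓ.Prime] {A : ValuationSubring (AlgebraicClosure ℚ)} {N : ℕ} [NeZero N]

theorem singleton_subset_pair :
    ({jFull N} : Set ↥(modularFunctionFieldFull N)) ⊆ {jFull N, (jFull N)⁻¹} := by
  intro x hx
  exact Or.inl hx

theorem singleton_inv_subset_pair :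
    ({(jFull N)⁻¹} : Set ↥(modularFunctionFieldFull N)) ⊆ {jFull N, (jFull N)⁻¹} := by
  intro x hx
  exact Or.inr hx

/-- **Gauss normal form**: hypothesis `hGauss` of `core` for the modular fields. -/
theorem gauss_Fb (hℓN : ¬ ℓ ∣ N) (hA : A.LiesOverPrime ℓ) (f : Fb N) (hf : f ≠ 0) :
    ∃ (c : AlgebraicClosure ℚ) (y₁ y₂ : Adm A (Fb N) (Ft A N)), c ≠ 0 ∧
      redOf A (Fb N) (Ft A N) y₁ ≠ 0 ∧ redOf A (Fb N) (Ft A N) y₂ ≠ 0 ∧
      f * genOf A (Fb N) (Ft A N) y₂ =
        algebraMap (AlgebraicClosure ℚ) (Fb N) c * genOf A (Fb N) (Ft A N) y₁ := by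
  obtain ⟨y₁, y₂, h1, h2, hy2, heq⟩ := exists_isIntFin_frac (ℓ := ℓ) hℓN hA f
  have hfL : (f : LaurentSeries (AlgebraicClosure ℚ)) ≠ 0 := fun h => hf (Subtype.ext h)
  have hy2L : coeffMap A.subtype y₂ ≠ 0 := fun h =>
    hy2 (coeffMap_subtype_injective A (by rw [h, map_zero]))
  have hy1 : y₁ ≠ 0 := by
    rintro rfl
    rw [map_zero] at heq
    exact (mul_ne_zero hfL hy2L) heq
  obtain ⟨c₁, z₁, hc₁, hz₁, e₁, hr₁⟩ :=
    IsChartInt.exists_normalize hℓN hA (Or.inl rfl) h1 hy1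
  obtain ⟨c₂, z₂, hc₂, hz₂, e₂, hr₂⟩ :=
    IsChartInt.exists_normalize hℓN hA (Or.inl rfl) h2 hy2
  have hc₁L : (c₁ : AlgebraicClosure ℚ) ≠ 0 := fun h => hc₁ (Subtype.ext h)
  have hc₂L : (c₂ : AlgebraicClosure ℚ) ≠ 0 := fun h => hc₂ (Subtype.ext h)
  refine ⟨(c₁ : AlgebraicClosure ℚ) / c₂,
    ⟨z₁, IsChartInt.mem_Adm hℓN hA singleton_subset_pair hz₁⟩,
    ⟨z₂, IsChartInt.mem_Adm hℓN hA singleton_subset_pair hz₂⟩,
    div_ne_zero hc₁L hc₂L, fun h => hr₁ (congrArg Subtype.val h),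
    fun h => hr₂ (congrArg Subtype.val h), ?_⟩
  apply Subtype.ext
  show (f : LaurentSeries (AlgebraicClosure ℚ)) * coeffMap A.subtype z₂ =
    algebraMap (AlgebraicClosure ℚ) (LaurentSeries (AlgebraicClosure ℚ))
      ((c₁ : AlgebraicClosure ℚ) / c₂) * coeffMap A.subtype z₁
  rw [e₁, e₂, map_mul, map_mul, coeffMap_subtype_C, coeffMap_subtype_C] at heq
  have hc₂' : algebraMap (AlgebraicClosure ℚ) (LaurentSeries (AlgebraicClosure ℚ))
      (c₂ : AlgebraicClosure ℚ) ≠ 0 := by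
    rw [Ne, map_eq_zero]; exact hc₂L
  rw [map_div₀]
  field_simp
  rw [← heq]
  ring

end Fermat.Agent.S18.MODFF4186
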