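import Fermat.Agent.S18.Defs

/-!
# S18 / MODFF (helper4186): pole parts of divisors and their push-forward

Pure `Finsupp` bookkeeping behind step (C1) of the route: if `r_* D = E`, `r` preserves degrees,
all degrees on the target are positive and the pole parts of `D` and `E` have the same degree,
then `r_*` maps the pole part of `D` onto the pole part of `E` (and the zero part onto the zero
part).  In particular `r` maps poles to poles.
-/

set_option autoImplicit false

noncomputable section

namespace Fermat.Agent.S18.MODFF4186

open AlgebraicCurve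

section Finsupp

variable {α β : Type*}

/-- The pole part `max (-D) 0` of an integer valued finitely supported function. -/
def polePart (D : α →₀ ℤ) : α →₀ ℤ := D.mapRange (fun n => max (-n) 0) (by simp)

/-- The zero part `max D 0` of an integer valued finitely supported function. -/
def zeroPart (D : α →₀ ℤ) : α →₀ ℤ := D.mapRange (fun n => max n 0) (by simp)

@[simp] theorem polePart_apply (D : α →₀ ℤ) (a : α) : polePart D a = max (-(D a)) 0 := rfl

@[simp] theorem zeroPart_apply (D : α →₀ ℤ) (a : α) : zeroPart D a = max (D a) 0 := rfl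

theorem polePart_nonneg (D : α →₀ ℤ) (a : α) : 0 ≤ polePart D a := by simp

theorem zeroPart_nonneg (D : α →₀ ℤ) (a : α) : 0 ≤ zeroPart D a := by simp

theorem zeroPart_sub_polePart (D : α →₀ ℤ) : zeroPart D - polePart D = D := by
  ext a
  simp only [Finsupp.sub_apply, zeroPart_apply, polePart_apply]
  rcases le_total (D a) 0 with h | h
  · rw [max_eq_right h, max_eq_left (by omega)]; omega
  · rw [max_eq_left h, max_eq_right (by omega)]; omega

theorem polePart_pos_iff (D : α →₀ ℤ) (a : α) : 0 < polePart D a ↔ D a < 0 := by
  simp only [polePart_apply]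
  constructor
  · intro h
    by_contra h'
    rw [max_eq_right (by omega)] at h
    exact lt_irrefl _ h
  · intro h
    exact lt_max_of_lt_left (by omega)

/-- Push-forward of a pointwise nonnegative function is pointwise nonnegative. -/
theorem mapDomain_nonneg (r : α → β) {F : α →₀ ℤ} (hF : ∀ a, 0 ≤ F a) (b : β) :
    0 ≤ Finsupp.mapDomain r F b := by
  classical
  simp only [Finsupp.mapDomain, Finsupp.sum, Finsupp.finset_sum_apply, Finsupp.single_apply]
  refine Finset.sum_nonneg fun a _ => ?_
  split_ifs
  · exact hF a
  · exact le_rfl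

/-- For a pointwise nonnegative function, the push-forward at `r a` dominates the value at `a`. -/
theorem le_mapDomain_apply (r : α → β) {F : α →₀ ℤ} (hF : ∀ a, 0 ≤ F a) (a : α) :
    F a ≤ Finsupp.mapDomain r F (r a) := by
  classical
  by_cases ha : a ∈ F.support
  · simp only [Finsupp.mapDomain, Finsupp.sum, Finsupp.finset_sum_apply, Finsupp.single_apply]
    have h1 : ∀ c ∈ F.support, 0 ≤ (if r c = r a then F c else 0) := by
      intro c _
      split_ifs
      · exact hF c
      · exact le_rfl
    have h2 := Finset.single_le_sum h1 ha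
    rwa [if_pos rfl] at h2
  · rw [Finsupp.notMem_support_iff.mp ha]
    exact mapDomain_nonneg r hF _

end Finsupp

section Degree

variable {K F : Type*} [Field K] [Field F] [Algebra K F]

/-- A pointwise nonnegative divisor of degree zero vanishes, if all places have positive degree. -/
theorem eq_zero_of_nonneg_of_degree_eq_zero (hdeg : ∀ Q : Place K F, 0 < Q.deg)
    {E : Divisor K F} (hE : ∀ Q, 0 ≤ E Q) (h0 : Divisor.degree E = 0) : E = 0 := by
  classical
  have hsum : Divisor.degree E = ∑ Q ∈ E.support, E Q * (Q.deg : ℤ) := by
    simp [Divisor.degree, Finsupp.sum]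
  rw [hsum] at h0
  have hterm : ∀ Q ∈ E.support, 0 ≤ E Q * (Q.deg : ℤ) := fun Q _ =>
    mul_nonneg (hE Q) (Int.natCast_nonneg _)
  have hz := (Finset.sum_eq_zero_iff_of_nonneg hterm).mp h0
  ext Q
  by_cases hQ : Q ∈ E.support
  · have h1 := hz Q hQ
    have h2 : (Q.deg : ℤ) ≠ 0 := by
      have := hdeg Q
      omega
    simpa using (mul_eq_zero.mp h1).resolve_right h2
  · simpa using Finsupp.notMem_support_iff.mp hQ

end Degree

section Push

variable {K F K' F' : Type*} [Field K] [Field F] [Algebra K F] [Field K'] [Field F'] [Algebra K' F']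

theorem degree_mapDomain (r : Place K F → Place K' F') (hrdeg : ∀ P, (r P).deg = P.deg)
    (D : Divisor K F) : Divisor.degree (Finsupp.mapDomain r D) = Divisor.degree D := by
  induction D using Finsupp.induction with
  | zero => simp
  | single_add P n D _ _ ih =>
    rw [Finsupp.mapDomain_add, map_add, map_add, ih, Finsupp.mapDomain_single,
      Divisor.degree_single, Divisor.degree_single, hrdeg]

/-- **Pole parts are preserved.**  If `r_* D = E`, `r` preserves degrees, all places of the target
have positive degree and the pole parts of `D` and `E` have the same degree, then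
`r_* (polePart D) = polePart E`. -/
theorem mapDomain_polePart (r : Place K F → Place K' F') (hrdeg : ∀ P, (r P).deg = P.deg)
    (hdeg' : ∀ Q : Place K' F', 0 < Q.deg)
    (D : Divisor K F) (E : Divisor K' F') (hDE : Finsupp.mapDomain r D = E)
    (hpole : Divisor.degree (polePart D) = Divisor.degree (polePart E)) :
    Finsupp.mapDomain r (polePart D) = polePart E := by
  have hsplit : Finsupp.mapDomain r (zeroPart D) - Finsupp.mapDomain r (polePart D) = E := by
    rw [← Finsupp.mapDomain_sub, zeroPart_sub_polePart, hDE]
  have hnn : ∀ Q, 0 ≤ (Finsupp.mapDomain r (polePart D) - polePart E) Q := by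
    intro Q
    have hz := mapDomain_nonneg r (zeroPart_nonneg D) Q
    have hp := mapDomain_nonneg r (polePart_nonneg D) Q
    have hE : E Q = Finsupp.mapDomain r (zeroPart D) Q - Finsupp.mapDomain r (polePart D) Q := by
      rw [← hsplit, Finsupp.sub_apply]
    rw [Finsupp.sub_apply, polePart_apply, hE, sub_nonneg]
    exact max_le (by omega) hp
  have hd0 : Divisor.degree (Finsupp.mapDomain r (polePart D) - polePart E) = 0 := by
    rw [map_sub, degree_mapDomain r hrdeg, hpole, sub_self]
  exact sub_eq_zero.mp (eq_zero_of_nonneg_of_degree_eq_zero hdeg' hnn hd0)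

/-- Under the hypotheses of `mapDomain_polePart`, also the zero parts correspond. -/
theorem mapDomain_zeroPart (r : Place K F → Place K' F') (hrdeg : ∀ P, (r P).deg = P.deg)
    (hdeg' : ∀ Q : Place K' F', 0 < Q.deg)
    (D : Divisor K F) (E : Divisor K' F') (hDE : Finsupp.mapDomain r D = E)
    (hpole : Divisor.degree (polePart D) = Divisor.degree (polePart E)) :
    Finsupp.mapDomain r (zeroPart D) = zeroPart E := by
  have h1 := mapDomain_polePart r hrdeg hdeg' D E hDE hpole
  have hsplit : Finsupp.mapDomain r (zeroPart D) - Finsupp.mapDomain r (polePart D) = E := by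
    rw [← Finsupp.mapDomain_sub, zeroPart_sub_polePart, hDE]
  have hs : Finsupp.mapDomain r (zeroPart D) = E + Finsupp.mapDomain r (polePart D) :=
    eq_add_of_sub_eq hsplit
  rw [hs, h1]
  exact (sub_eq_iff_eq_add.mp (zeroPart_sub_polePart E)).symm

/-- **Poles map to poles.** -/
theorem pole_of_pole (r : Place K F → Place K' F') (hrdeg : ∀ P, (r P).deg = P.deg)
    (hdeg' : ∀ Q : Place K' F', 0 < Q.deg)
    (D : Divisor K F) (E : Divisor K' F') (hDE : Finsupp.mapDomain r D = E)
    (hpole : Divisor.degree (polePart D) = Divisor.degree (polePart E))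
    (P : Place K F) (hP : D P < 0) : E (r P) < 0 := by
  have h1 := mapDomain_polePart r hrdeg hdeg' D E hDE hpole
  have h2 := le_mapDomain_apply r (polePart_nonneg D) P
  rw [h1] at h2
  exact (polePart_pos_iff E (r P)).mp (lt_of_lt_of_le ((polePart_pos_iff D P).mpr hP) h2)

/-- **Zeros map to zeros.** -/
theorem zero_of_zero (r : Place K F → Place K' F') (hrdeg : ∀ P, (r P).deg = P.deg)
    (hdeg' : ∀ Q : Place K' F', 0 < Q.deg)
    (D : Divisor K F) (E : Divisor K' F') (hDE : Finsupp.mapDomain r D = E)
    (hpole : Divisor.degree (polePart D) = Divisor.degree (polePart E))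
    (P : Place K F) (hP : 0 < D P) : 0 < E (r P) := by
  have h1 := mapDomain_zeroPart r hrdeg hdeg' D E hDE hpole
  have h2 := le_mapDomain_apply r (zeroPart_nonneg D) P
  rw [h1] at h2
  have h3 : 0 < zeroPart D P := by
    rw [zeroPart_apply]; exact lt_max_of_lt_left hP
  have h4 := lt_of_lt_of_le h3 h2
  rw [zeroPart_apply] at h4
  by_contra h5
  rw [max_eq_right (by omega)] at h4
  exact lt_irrefl _ h4

end Push

end Fermat.Agent.S18.MODFF4186
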